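import Fermat.Agent.RIB.Hard.Alg
import Fermat.Agent.RIB.Main.Ctx
import Fermat.Agent.S56.Gen.Loc
import Fermat.Agent.SS.Mod.S34Wire
import Fermat.Agent.SS.Mod.CuspOrdC
import Fermat.Agent.S54.Frobenius
import Fermat.Agent.GAL.PC.CycloPow

/-!
# RIB / HARD / Main : block B5 (board #2162, contract `HardOut` of `RIB/Main/Spec.lean`)

`hardOut_of_key` : `q ‖ L`, `q ≠ 2, p`; (KEY) in the consumer form of `RIB/Key/Cor.lean` (`key_theta`) at the place
`primeLocalPlace q`  ⟹  `HardOut L p S θ rbar0 q`.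

Ingredients : `Hard.hard_alg` (`RIB/Hard/Alg.lean`), `SS.unip_of_cuspOrd` (UNIP), `S56.exists_local_gens` (tame generators).
-/

set_option autoImplicit false
set_option linter.unusedSectionVars false
set_option linter.style.haveILetI false

noncomputable section

open AlgebraicCurve ModularCurve Module IsLocalRing ExtCitation

namespace Fermat.Agent.RIB.Hard

open Fermat.Agent.S56 (inert ScalarMod)
open Fermat.Agent.CFT (decomp)

local notation "Qbar" => AlgebraicClosure ℚ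
local notation "GQ" => (AlgebraicClosure ℚ ≃ₐ[ℚ] AlgebraicClosure ℚ)
local notation "M₂" => Matrix (Fin 2) (Fin 2)

variable {p : ℕ} [Fact p.Prime] {T : Finset ℕ} {θ : ℕ → ℤ} {rbar0 : GQ →* M₂ (ZMod p)}

theorem sub_one_mul_sub_one {E : Type*} [Ring E] (X : E) :
    (X - 1) * (X - 1) = X * X - 2 • X + 1 := by noncomm_ring

section Abs

variable {R V G : Type*} [CommRing R] [AddCommGroup V] [Module R V] [Group G]
  [DistribMulAction G V] (Φ : Matrix (Fin 2) (Fin 2) R →ₐ[R] Module.End R V)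
  (ρ : G →* Matrix (Fin 2) (Fin 2) R) (hact : ∀ (g : G) (v : V), Φ (ρ g) v = g • v)

include hact

theorem sq_zero_of_unip (hfaith : ∀ x : R, (∀ v : V, x • v = 0) → x = 0) (τ : G)
    (hunip : ∀ v : V, τ • τ • v - 2 • τ • v + v = 0) : (ρ τ - 1) * (ρ τ - 1) = 0 := by
  refine Rho.eq_zero_of_phi_eq_zero Φ hfaith _ fun w => ?_
  rw [sub_one_mul_sub_one, map_add, map_sub, map_mul, map_nsmul, map_one, LinearMap.add_apply,
    LinearMap.sub_apply, Module.End.mul_apply, LinearMap.smul_apply, hact, hact,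
    Module.End.one_apply]
  exact hunip w

theorem smul_eq_of_rho_eq_pow {τ τ₀ : G} {b : ℕ} (hb : ρ τ = ρ τ₀ ^ b) {x : V} (hx : τ₀ • x = x) :
    τ • x = x := by
  have h2 : ∀ n : ℕ, Φ (ρ τ₀ ^ n) x = x := by
    intro n
    induction n with
    | zero => rw [pow_zero, map_one, Module.End.one_apply]
    | succ n ih => rw [pow_succ, map_mul, Module.End.mul_apply, hact, hx, ih]
  rw [← hact, hb, h2]

theorem rho_eq_one_of_smul (hfaith : ∀ x : R, (∀ v : V, x • v = 0) → x = 0) {σ : G}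
    (h : ∀ v : V, σ • v = v) : ρ σ = 1 := by
  rw [← sub_eq_zero]
  refine Rho.eq_zero_of_phi_eq_zero Φ hfaith _ fun w => ?_
  rw [map_sub, map_one, LinearMap.sub_apply, hact, Module.End.one_apply, sub_eq_zero]
  exact h w

end Abs

theorem two_ne_zero_of_ectx (EC : ECtx p T θ rbar0) : (2 : ZMod p) ≠ 0 := by
  intro h
  have h1 : ((2 : ℕ) : ZMod p) = 0 := by exact_mod_cast h
  rw [ZMod.natCast_eq_zero_iff] at h1
  have := Nat.le_of_dvd (by norm_num) h1
  have := EC.hp5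
  omega

/-- the residual representation spans `M₂(𝔽_p)`. -/
theorem adjoin_range_rbar0 (EC : ECtx p T θ rbar0) :
    Algebra.adjoin (ZMod p) (Set.range rbar0) = ⊤ := by
  obtain ⟨σ₀, τ₀, u, hu, hnf⟩ := EC.nf
  have hp2 := two_ne_zero_of_ectx EC
  haveI : NeZero p := ⟨(Fact.out : p.Prime).ne_zero⟩
  let c : GQ →* ZMod p := (Units.coeHom (ZMod p)).comp (cycloChar p)
  have hc : ∀ g, c g = ((cycloChar p g : (ZMod p)ˣ) : ZMod p) := fun _ => rfl
  have hps : TW.TR.IsPseudo (fun g => (rbar0 g).trace) c := by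
    refine Rho.isPseudo_of_spec (E := M₂ (ZMod p)) (γ := rbar0) (fun g => ?_)
      (algebraMap (ZMod p) (M₂ (ZMod p))).injective
    rw [hc, ← EC.det, Algebra.algebraMap_eq_smul_one]
    exact add_det_smul_inv (rbar0 g) (rbar0 g⁻¹) (by rw [← map_mul, mul_inv_cancel, map_one])
  have hcc : c complexConjugation = -1 := GAL.PC.cycloChar_complexConjugation p
  exact adjoin_range_rhoMat_eq_top hps (inv_mul_cancel₀ hp2) complexConjugation_mul_self hcc hu
    rbar0 hnf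

section

variable {L : ℕ} [NeZero L] {S : Set ℕ}
  {R : Type} [CommRing R] [IsLocalRing R] [Algebra (ZMod p) R] [Module R ↥(WS L p S θ)]
  [IsScalarTower (ZMod p) R ↥(WS L p S θ)]
  {π0 : R →ₐ[ZMod p] ZMod p} {ρ : GQ →* M₂ R} {Φ : M₂ R →ₐ[R] Module.End R ↥(WS L p S θ)}

theorem pi0_surjective (π0 : R →ₐ[ZMod p] ZMod p) : Function.Surjective (π0 : R →+* ZMod p) :=
  fun c => ⟨algebraMap (ZMod p) R c, by
    show π0 (algebraMap (ZMod p) R c) = c
    rw [AlgHom.commutes]; rfl⟩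

theorem mem_maximalIdeal_of_pi0 (π0 : R →ₐ[ZMod p] ZMod p) (x : R) (hx : π0 x = 0) :
    x ∈ maximalIdeal R := by
  have h := IsLocalRing.eq_maximalIdeal
    (RingHom.ker_isMaximal_of_surjective (π0 : R →+* ZMod p) (pi0_surjective π0))
  rw [← h]
  exact hx

theorem adjoin_range_rho (EC : ECtx p T θ rbar0) (H : IsRho L p S θ rbar0 π0 ρ Φ) :
    Algebra.adjoin R (Set.range ρ) = ⊤ :=
  adjoin_range_eq_top_of_residual (π0 : R →+* ZMod p) (pi0_surjective π0)
    (mem_maximalIdeal_of_pi0 π0) ρ rbar0 H.lift (adjoin_range_rbar0 EC)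

theorem finite_of_isRho (H : IsRho L p S θ rbar0 π0 ρ Φ) : Finite R := by
  haveI : NeZero p := ⟨(Fact.out : p.Prime).ne_zero⟩
  refine Finite.of_injective (fun (r : R) (w : ↥(WS L p S θ)) => r • w) fun r r' h => ?_
  rw [← sub_eq_zero]
  refine H.faithful _ fun w => ?_
  rw [sub_smul, sub_eq_zero]
  exact congrFun h w

theorem exists_socle_of_isRho (H : IsRho L p S θ rbar0 π0 ρ Φ) :
    ∃ x : ↥(WS L p S θ), x ≠ 0 ∧ ∀ t ∈ maximalIdeal R, t • x = 0 := by
  haveI := finite_of_isRho H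
  have hnil : IsNilpotent (maximalIdeal R) := by
    have := IsArtinianRing.isNilpotent_jacobson_bot (R := R)
    rwa [IsLocalRing.jacobson_eq_maximalIdeal ⊥ bot_ne_top] at this
  refine exists_socle _ hnil ?_
  by_contra hne
  refine one_ne_zero (H.faithful (1 : R) fun w => ?_)
  by_contra hw
  exact hne ⟨w, fun h0 => hw (by rw [h0, smul_zero])⟩

theorem cont_of_isRho (H : IsRho L p S θ rbar0 π0 ρ Φ) : GaloisFactorsThroughFiniteLevel ρ := by
  obtain ⟨F, hF, h⟩ := exists_level_torsion L p (Fact.out : p.Prime).ne_zero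
  exact ⟨F, hF, fun σ hσ => rho_eq_one_of_smul Φ ρ H.act H.faithful fun w =>
    Subtype.ext (h σ hσ w.1 w.2.2)⟩

end

set_option maxHeartbeats 4000000 in
/-- **(B5, HARD)** from (KEY) in the consumer form. -/
theorem hardOut_of_key (EC : ECtx p T θ rbar0) (S : Set ℕ) (L q : ℕ) [NeZero L] (hq : q.Prime)
    (hq2 : q ≠ 2) (hqp : q ≠ p) (hqL : q ∣ L) (hqq : ¬ q ^ 2 ∣ L)
    (hkey : ∀ σ : GQ, (primeLocalPlace ⟨q, hq⟩).IsFrobeniusAt σ q →
      ∃ w : JZero L →+ JZero L, (∀ x, w (w x) = x) ∧ (∀ (g : GQ) x, w (g • x) = g • w x) ∧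
        (∀ x ∈ thetaPart L p S θ, w x ∈ thetaPart L p S θ) ∧
        ∀ x ∈ thetaPart L p S θ,
          (∀ τ ∈ (primeLocalPlace ⟨q, hq⟩).inertiaSubgroupIn ℚ, τ • x = x) → σ • x + q • w x = 0) :
    HardOut L p S θ rbar0 ⟨q, hq⟩ := by
  intro R _ _ _ _ _ π0 ρ Φ H
  have hp : p.Prime := Fact.out
  set v : Nat.Primes := ⟨q, hq⟩ with hv
  have hA : (primeLocalPlace v).LiesOverPrime q := S56.liesOverPrime_primeLocalPlace v
  have hpR : ∀ X : M₂ R, p • X = 0 := by
    intro X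
    rw [← Nat.cast_smul_eq_nsmul (ZMod p), ZMod.natCast_self, zero_smul]
  -- (UNIP)
  have hun := SS.unip_of_cuspOrd (fun M q _ _ _ => SS.cuspOrd M q) hq hp hqp hqL hqq
  have hunV : ∀ τ ∈ inert v, ∀ x : ↥(WS L p S θ), τ • τ • x - 2 • τ • x + x = 0 := by
    intro τ hτ x
    have h1 := hun (primeLocalPlace v) hA τ hτ x.1 ⟨1, by rw [pow_one]; exact x.2.2⟩
    apply Subtype.ext
    rw [AddSubgroup.coe_add, AddSubgroup.coe_sub, AddSubgroup.coe_nsmul, coe_smul_WS, coe_smul_WS,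
      AddSubgroup.coe_zero]
    exact h1
  have hNN : ∀ τ ∈ inert v, (ρ τ - 1) * (ρ τ - 1) = 0 := by
    intro τ hτ
    exact sq_zero_of_unip Φ ρ H.act H.faithful τ (hunV τ hτ)
  have htors : ∀ τ ∈ inert v, ρ τ ^ p = 1 := by
    intro τ hτ
    have h1 := S56.one_add_pow_of_sq_zero (ρ τ - 1) (hNN τ hτ) p
    rwa [add_sub_cancel, hpR, add_zero] at h1
  -- generators
  obtain ⟨τ₀, hτ₀, hin, hdec⟩ := S56.exists_local_gens ρ (cont_of_isRho H) v p
    ((Nat.coprime_primes hp hq).2 (Ne.symm hqp)) htors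
  obtain ⟨φ, hφ⟩ := S54.exists_isFrobeniusAt_of_liesOverPrime hq (primeLocalPlace v) hA
  obtain ⟨w, hww, hwg, hwθ, hk⟩ := hkey φ hφ
  -- `w` on `V`
  obtain ⟨wV, hwV⟩ : ∃ wV : ↥(WS L p S θ) →ₗ[ZMod p] ↥(WS L p S θ),
      ∀ x, ((wV x : ↥(WS L p S θ)) : JZero L) = w x.1 :=
    ⟨AddMonoidHom.toZModLinearMap p
      { toFun := fun x => ⟨w x.1, map_mem_WS w hwθ x.2⟩
        map_zero' := Subtype.ext (map_zero w)
        map_add' := fun x y => Subtype.ext (map_add w x.1 y.1) }, fun _ => rfl⟩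
  have hfixall : ∀ x : ↥(WS L p S θ), τ₀ • x = x → ∀ τ ∈ inert v, τ • x = x := by
    intro x hx τ hτ
    obtain ⟨b, hb⟩ := hin τ hτ
    exact smul_eq_of_rho_eq_pow Φ ρ H.act hb hx
  have hdetτ : (ρ τ₀).det = 1 := by
    rw [H.det, show cycloChar p τ₀ = 1 from GAL.cycloChar_of_mem_inertia hq hqp hA hτ₀,
      Units.val_one, map_one]
  have hdetφ : (ρ φ).det = (q : R) := by
    rw [H.det, show ((cycloChar p φ : (ZMod p)ˣ) : ZMod p) = (q : ZMod p) from
      GAL.cycloChar_of_isFrobeniusAt hq hqp hA hφ, map_natCast]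
  have hq0 : (q : ZMod p) ≠ 0 := by
    rw [Ne, ZMod.natCast_eq_zero_iff, Nat.prime_dvd_prime_iff_eq hp hq]
    exact Ne.symm hqp
  have hτm : ∀ a b, (ρ τ₀ - 1) a b ∈ maximalIdeal R := by
    intro a b
    refine mem_maximalIdeal_of_pi0 π0 _ ?_
    have h1 := congrFun (congrFun (H.lift τ₀) a) b
    rw [EC.unram q hq hq2 hqp _ hA τ₀ hτ₀, Matrix.map_apply] at h1
    rw [Matrix.sub_apply, map_sub, h1]
    by_cases hab : a = b
    · rw [hab, Matrix.one_apply_eq, Matrix.one_apply_eq, map_one, sub_self]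
    · rw [Matrix.one_apply_ne hab, Matrix.one_apply_ne hab, map_zero, sub_self]
  have hkV : ∀ x : ↥(WS L p S θ), τ₀ • x = x → φ • x + q • wV x = 0 := by
    intro x hx
    have h1 := hk x.1 x.2.1 fun τ hτ =>
      (coe_smul_WS τ x).symm.trans (congrArg Subtype.val (hfixall x hx τ hτ))
    have e : ((φ • x + q • wV x : ↥(WS L p S θ)) : JZero L) = φ • x.1 + q • w x.1 :=
      (AddSubgroup.coe_add _ _ _).trans (congrArg₂ (· + ·) (coe_smul_WS φ x)
        ((AddSubgroup.coe_nsmul _ _ _).trans (congrArg (q • ·) (hwV x))))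
    exact Subtype.ext ((e.trans h1).trans (AddSubgroup.coe_zero _).symm)
  obtain ⟨hq1, ε, hε, hS, hN2, hdet1, hkeyV⟩ := hard_alg (k := ZMod p) Φ ρ H.act H.faithful
    (adjoin_range_rho EC H) H.tr (fun g => ⟨_, H.det g⟩) (exists_socle_of_isRho H) τ₀ φ q hτm
    (hunV τ₀ hτ₀) hdetτ hdetφ hq0 wV
    (fun x => Subtype.ext ((hwV (wV x)).trans ((congrArg w (hwV x)).trans (hww x.1))))
    (fun g x => Subtype.ext ((hwV (g • x)).trans ((hwg g x.1).trans
      ((congrArg (g • ·) (hwV x)).symm.trans (coe_smul_WS g (wV x)).symm))))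
    hkV
  refine ⟨ρ τ₀ - 1, ρ φ, ε, by rcases hε with rfl | rfl <;> ring, hS, hτm, hN2, hdet1, hkeyV,
    fun σ hσ => ?_⟩
  set J : Ideal R := entryIdeal (ρ τ₀ - 1) ⊔ entryIdeal (ρ φ - ε • (1 : M₂ R)) with hJ
  have s1 : ScalarMod (ZMod p) J (ρ τ₀) :=
    ⟨1, fun a b => by
      rw [map_one, one_smul, ← Matrix.sub_apply]
      exact Ideal.mem_sup_left (entry_mem_entryIdeal _ a b)⟩
  have s2 : ScalarMod (ZMod p) J (ρ φ) := by
    obtain ⟨c, hc⟩ : ∃ c : ZMod p, algebraMap (ZMod p) R c = ε := by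
      rcases hε with rfl | rfl
      · exact ⟨1, map_one _⟩
      · exact ⟨-1, by rw [map_neg, map_one]⟩
    exact ⟨c, fun a b => by
      rw [hc, ← Matrix.sub_apply]
      exact Ideal.mem_sup_right (entry_mem_entryIdeal _ a b)⟩
  obtain ⟨a, b, hab⟩ := hdec φ hφ σ hσ
  obtain ⟨c, hc⟩ : ScalarMod (ZMod p) J (ρ σ) := by
    rw [hab]
    exact (s2.pow a).mul (s1.pow b)
  exact ⟨c, fun a b => hc a b⟩

end Fermat.Agent.RIB.Hard
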