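import Mathlib
import Fermat.Agent.RIB.Star
import Fermat.Agent.RIB.Rho.Mod

/-!
# RIB / HARD / Alg : the algebra of block B5 (board #2162)   (Mathlib + `RIB/Star` + `RIB/Rho/Mod`)

`R` a local ring, `V` an `R`-module, `Φ : M₂(R) →ₐ[R] End_R V`, `ρ : G →* M₂(R)`, `Φ (ρ g) v = g • v`.

* `adjoin_eq_top_of_units`, `adjoin_range_rhoMat_eq_top` : the explicit representation `rhoMat` spans `M₂`.
* `adjoin_range_eq_top_of_residual` : Nakayama, `ρ` spans `M₂(R)` if its reduction spans `M₂(k)`.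
* `map_phi_comm` : a linear map commuting with `G` commutes with `Φ A` for all `A`.
* `trace_smul_eq` : `tr ρ(g) • v = g • v + det ρ(g) • g⁻¹ • v`.
* `map_smul_of_adjoin_trace` : a `k`-linear map commuting with `G` is `R`-linear (`R` generated by the traces).
* `exists_socle` : `V ≠ 0`, `m` nilpotent ⟹ `V[m] ≠ 0`.
* `hard_alg` : (MP) + (KEY) + (UNIP) ⟹ the hypotheses `hS hNm hNN hdet key` of `RIB.end_false` for `N = ρ τ - 1`, `S = ρ σ`.
-/

set_option autoImplicit false

namespace Fermat.Agent.RIB.Hard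

open Matrix IsLocalRing

/-! ### spanning -/

section Span

variable {K : Type*} [CommRing K]

theorem adjoin_eq_top_of_units (𝒜 : Subalgebra K (Matrix (Fin 2) (Fin 2) K))
    (C X Y : Matrix (Fin 2) (Fin 2) K) (hC : C ∈ 𝒜) (hX : X ∈ 𝒜) (hY : Y ∈ 𝒜) (i2 : K)
    (h2 : i2 * 2 = 1) (hC' : C = !![1, 0; 0, -1]) (u v : K) (hu : u * X 0 1 = 1)
    (hv : v * Y 1 0 = 1) : 𝒜 = ⊤ := by
  have e11 : Matrix.single 0 0 (1 : K) ∈ 𝒜 := by
    have : Matrix.single 0 0 (1 : K) = i2 • (1 + C) := by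
      subst hC'
      ext a b
      fin_cases a <;> fin_cases b <;> simp [Matrix.single]
      linear_combination -h2
    rw [this]
    exact 𝒜.smul_mem (𝒜.add_mem 𝒜.one_mem hC) _
  have e22 : Matrix.single 1 1 (1 : K) ∈ 𝒜 := by
    have : Matrix.single 1 1 (1 : K) = i2 • (1 - C) := by
      subst hC'
      ext a b
      fin_cases a <;> fin_cases b <;> simp [Matrix.single]
      linear_combination -h2
    rw [this]
    exact 𝒜.smul_mem (𝒜.sub_mem 𝒜.one_mem hC) _
  have e12 : Matrix.single 0 1 (1 : K) ∈ 𝒜 := by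
    have : Matrix.single 0 1 (1 : K) = u • (Matrix.single 0 0 (1 : K) * X * Matrix.single 1 1 1) := by
      rw [Matrix.single_mul_mul_single, one_mul, mul_one, Matrix.smul_single, smul_eq_mul, hu]
    rw [this]
    exact 𝒜.smul_mem (𝒜.mul_mem (𝒜.mul_mem e11 hX) e22) _
  have e21 : Matrix.single 1 0 (1 : K) ∈ 𝒜 := by
    have : Matrix.single 1 0 (1 : K) = v • (Matrix.single 1 1 (1 : K) * Y * Matrix.single 0 0 1) := by
      rw [Matrix.single_mul_mul_single, one_mul, mul_one, Matrix.smul_single, smul_eq_mul, hv]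
    rw [this]
    exact 𝒜.smul_mem (𝒜.mul_mem (𝒜.mul_mem e22 hY) e11) _
  have hE : ∀ i j : Fin 2, Matrix.single i j (1 : K) ∈ 𝒜 := by
    intro i j
    fin_cases i <;> fin_cases j
    · exact e11
    · exact e12
    · exact e21
    · exact e22
  rw [eq_top_iff]
  intro A _
  rw [Matrix.matrix_eq_sum_single A]
  refine 𝒜.sum_mem fun i _ => 𝒜.sum_mem fun j _ => ?_
  have : Matrix.single i j (A i j) = A i j • Matrix.single i j (1 : K) := by
    rw [Matrix.smul_single, smul_eq_mul, mul_one]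
  rw [this]
  exact 𝒜.smul_mem (hE i j) _

open Fermat.Agent.TW.TR Fermat.Agent.RIB.Rho in
/-- the explicit representation spans `M₂(K)`. -/
theorem adjoin_range_rhoMat_eq_top {G : Type*} [Group G] {t : G → K} {c : G →* K} {i2 : K}
    {c₀ σ₀ τ₀ : G} {u : K} (h : IsPseudo t c) (h2 : i2 * 2 = 1) (hc₀ : c₀ * c₀ = 1)
    (hcc : c c₀ = -1) (hu : u * xF t i2 c₀ σ₀ τ₀ = 1) (ρ : G → Matrix (Fin 2) (Fin 2) K)
    (hρ : ∀ g, ρ g = rhoMat t i2 c₀ σ₀ τ₀ u g) : Algebra.adjoin K (Set.range ρ) = ⊤ := by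
  have ht0 := t_c₀ h h2 hc₀ hcc
  have hC : ρ c₀ = !![1, 0; 0, -1] := by
    rw [hρ, rhoMat]
    have a1 : aF t i2 c₀ c₀ = 1 := by rw [aF_eq, hc₀, ht0, h.one, zero_add, h2]
    have d1 : dF t i2 c₀ c₀ = -1 := by rw [dF_eq, hc₀, ht0, h.one, zero_sub, mul_neg, h2]
    have x1 : xF t i2 c₀ c₀ τ₀ = 0 := by
      rw [xF_eq, hc₀, one_mul, one_mul]
      ring
    have x2 : xF t i2 c₀ σ₀ c₀ = 0 := by
      rw [xF_eq, mul_assoc σ₀ c₀ c₀, hc₀, mul_one, mul_assoc (c₀ * σ₀) c₀ c₀, hc₀, mul_one,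
        h.comm (c₀ * σ₀) c₀, ← mul_assoc, hc₀, one_mul, h.comm σ₀ c₀]
      ring
    rw [a1, d1, x1, x2, mul_zero]
  refine adjoin_eq_top_of_units _ (ρ c₀) (ρ σ₀) (ρ τ₀) (Algebra.subset_adjoin ⟨c₀, rfl⟩)
    (Algebra.subset_adjoin ⟨σ₀, rfl⟩) (Algebra.subset_adjoin ⟨τ₀, rfl⟩) i2 h2 hC 1 u ?_ ?_
  · rw [hρ, rhoMat, one_mul]
    exact hu
  · rw [hρ, rhoMat]
    exact hu

/-- Nakayama : `ρ` spans `M₂(R)` if its reduction spans `M₂(k)`. -/
theorem adjoin_range_eq_top_of_residual {R k ι : Type*} [CommRing R] [IsLocalRing R] [CommRing k]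
    (π : R →+* k) (hπ : Function.Surjective π) (hker : ∀ x, π x = 0 → x ∈ maximalIdeal R)
    (ρ : ι → Matrix (Fin 2) (Fin 2) R) (rb : ι → Matrix (Fin 2) (Fin 2) k)
    (hl : ∀ g, (ρ g).map π = rb g) (hrb : Algebra.adjoin k (Set.range rb) = ⊤) :
    Algebra.adjoin R (Set.range ρ) = ⊤ := by
  set 𝒜 := Algebra.adjoin R (Set.range ρ) with h𝒜
  -- every matrix over `k` lifts to `𝒜`
  have hlift : ∀ B : Matrix (Fin 2) (Fin 2) k, ∃ A ∈ 𝒜, A.map π = B := by
    intro B
    have hB : B ∈ Algebra.adjoin k (Set.range rb) := by rw [hrb]; exact Algebra.mem_top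
    induction hB using Algebra.adjoin_induction with
    | mem x hx =>
      obtain ⟨g, rfl⟩ := hx
      exact ⟨ρ g, Algebra.subset_adjoin ⟨g, rfl⟩, hl g⟩
    | algebraMap c =>
      obtain ⟨r, rfl⟩ := hπ c
      refine ⟨algebraMap R _ r, 𝒜.algebraMap_mem r, ?_⟩
      ext i j
      by_cases hij : i = j
      · subst hij
        simp [Matrix.algebraMap_matrix_apply]
      · simp [Matrix.algebraMap_matrix_apply, hij]
    | add x y _ _ hx hy =>
      obtain ⟨a, ha, rfl⟩ := hx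
      obtain ⟨b, hb, rfl⟩ := hy
      exact ⟨a + b, 𝒜.add_mem ha hb, Matrix.map_add π (map_add π) a b⟩
    | mul x y _ _ hx hy =>
      obtain ⟨a, ha, rfl⟩ := hx
      obtain ⟨b, hb, rfl⟩ := hy
      exact ⟨a * b, 𝒜.mul_mem ha hb, Matrix.map_mul⟩
  have hN : (⊤ : Submodule R (Matrix (Fin 2) (Fin 2) R)) ≤ Subalgebra.toSubmodule 𝒜 := by
    refine Submodule.le_of_le_smul_of_le_jacobson_bot (I := maximalIdeal R) Module.Finite.fg_top
      (IsLocalRing.maximalIdeal_le_jacobson _) ?_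
    intro A _
    obtain ⟨B, hB, hAB⟩ := hlift (A.map π)
    have hD : A - B ∈ maximalIdeal R • (⊤ : Submodule R (Matrix (Fin 2) (Fin 2) R)) := by
      rw [Matrix.matrix_eq_sum_single (A - B)]
      refine Submodule.sum_mem _ fun i _ => Submodule.sum_mem _ fun j _ => ?_
      have e : Matrix.single i j ((A - B) i j) = (A - B) i j • Matrix.single i j (1 : R) := by
        rw [Matrix.smul_single, smul_eq_mul, mul_one]
      rw [e]
      refine Submodule.smul_mem_smul (hker _ ?_) Submodule.mem_top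
      have := congrFun (congrFun hAB i) j
      simp only [Matrix.map_apply] at this
      rw [Matrix.sub_apply, map_sub, this, sub_self]
    have : A = B + (A - B) := by abel
    rw [this]
    exact Submodule.add_mem_sup hB hD
  rw [eq_top_iff]
  intro A _
  exact hN Submodule.mem_top

end Span

/-! ### commutation -/

section Comm

variable {R V : Type*} [CommRing R] [AddCommGroup V] [Module R V]
  (Φ : Matrix (Fin 2) (Fin 2) R →ₐ[R] Module.End R V)

/-- an `R`-linear map commuting with the `Φ (ρ g)` commutes with all `Φ A`. -/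
theorem map_phi_comm {ι : Type*} (ρ : ι → Matrix (Fin 2) (Fin 2) R)
    (hspan : Algebra.adjoin R (Set.range ρ) = ⊤) (w : V →ₗ[R] V)
    (hw : ∀ g x, w (Φ (ρ g) x) = Φ (ρ g) (w x)) (A : Matrix (Fin 2) (Fin 2) R) (x : V) :
    w (Φ A x) = Φ A (w x) := by
  have hA : A ∈ Algebra.adjoin R (Set.range ρ) := by rw [hspan]; exact Algebra.mem_top
  induction hA using Algebra.adjoin_induction generalizing x with
  | mem a ha =>
    obtain ⟨g, rfl⟩ := ha
    exact hw g x
  | algebraMap c =>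
    rw [AlgHom.commutes, Module.algebraMap_end_apply, Module.algebraMap_end_apply, map_smul]
  | add a b _ _ ha hb =>
    rw [map_add, LinearMap.add_apply, LinearMap.add_apply, map_add, ha, hb]
  | mul a b _ _ ha hb =>
    rw [map_mul, Module.End.mul_apply, Module.End.mul_apply, ha, hb]

/-- Cayley–Hamilton : `X + det X • Y = tr X • 1` if `X * Y = 1`. -/
theorem add_det_smul_inv (X Y : Matrix (Fin 2) (Fin 2) R) (h : X * Y = 1) :
    X + X.det • Y = X.trace • (1 : Matrix (Fin 2) (Fin 2) R) := by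
  have h1 : X.adjugate = X.det • Y := by
    calc X.adjugate = X.adjugate * (X * Y) := by rw [h, mul_one]
      _ = (X.adjugate * X) * Y := by rw [mul_assoc]
      _ = X.det • Y := by rw [Matrix.adjugate_mul, smul_mul_assoc, one_mul]
  rw [← h1, Matrix.adjugate_fin_two, Matrix.trace_fin_two]
  ext i j
  fin_cases i <;> fin_cases j <;> simp [add_comm]

variable {G : Type*} [Group G] [DistribMulAction G V] (ρ : G →* Matrix (Fin 2) (Fin 2) R)
  (hact : ∀ (g : G) (v : V), Φ (ρ g) v = g • v)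

include hact in
/-- `tr ρ(g)` acts as `g + det ρ(g) g⁻¹`. -/
theorem trace_smul_eq (g : G) (v : V) :
    (ρ g).trace • v = g • v + (ρ g).det • g⁻¹ • v := by
  have h := add_det_smul_inv (ρ g) (ρ g⁻¹) (by rw [← map_mul, mul_inv_cancel, map_one])
  have h2 := congrArg (fun X => Φ X v) h
  simp only [map_add, map_smul, map_one, LinearMap.add_apply, LinearMap.smul_apply, hact,
    Module.End.one_apply] at h2
  exact h2.symm

include hact in
/-- a `k`-linear map commuting with `G` is `R`-linear if `R` is generated over `k` by the traces. -/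
theorem map_smul_of_adjoin_trace {k : Type*} [CommRing k] [Algebra k R] [Module k V]
    [IsScalarTower k R V]
    (htr : Algebra.adjoin k (Set.range fun g : G => (ρ g).trace) = ⊤)
    (hdet : ∀ g, ∃ c : k, (ρ g).det = algebraMap k R c) (w : V →ₗ[k] V)
    (hwg : ∀ (g : G) x, w (g • x) = g • w x) (r : R) (x : V) : w (r • x) = r • w x := by
  have hr : r ∈ Algebra.adjoin k (Set.range fun g : G => (ρ g).trace) := by
    rw [htr]; exact Algebra.mem_top
  induction hr using Algebra.adjoin_induction generalizing x with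
  | mem a ha =>
    obtain ⟨g, rfl⟩ := ha
    obtain ⟨c, hc⟩ := hdet g
    simp only [trace_smul_eq Φ ρ hact, hc, algebraMap_smul, map_add, map_smul, hwg]
  | algebraMap c => rw [algebraMap_smul, algebraMap_smul, map_smul]
  | add a b _ _ ha hb => rw [add_smul, add_smul, map_add, ha, hb]
  | mul a b _ _ ha hb => rw [mul_smul, mul_smul, ha, hb]

end Comm

/-! ### the socle -/

theorem exists_socle {R V : Type*} [CommRing R] [AddCommGroup V] [Module R V] (m : Ideal R)
    (hm : IsNilpotent m) (hV : ∃ x : V, x ≠ 0) : ∃ x : V, x ≠ 0 ∧ ∀ t ∈ m, t • x = 0 := by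
  classical
  obtain ⟨n, hn⟩ := hm
  have hex : ∃ n : ℕ, m ^ n • (⊤ : Submodule R V) = ⊥ := ⟨n, by rw [hn, Ideal.zero_eq_bot, Submodule.bot_smul]⟩
  have hmin : ∀ j, j < Nat.find hex → ¬ (m ^ j • (⊤ : Submodule R V) = ⊥) := fun j hj => Nat.find_min hex hj
  have hspec := Nat.find_spec hex
  set d := Nat.find hex with hd
  have hd0 : d ≠ 0 := by
    intro h0
    rw [h0, pow_zero, Ideal.one_eq_top, Submodule.top_smul] at hspec
    obtain ⟨x, hx⟩ := hV
    exact hx ((Submodule.mem_bot R).1 (hspec ▸ Submodule.mem_top))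
  obtain ⟨e, he⟩ := Nat.exists_eq_succ_of_ne_zero hd0
  have h1 : m ^ e • (⊤ : Submodule R V) ≠ ⊥ := hmin e (by omega)
  obtain ⟨x, hx, hx0⟩ := Submodule.exists_mem_ne_zero_of_ne_bot h1
  refine ⟨x, hx0, fun t ht => ?_⟩
  have : t • x ∈ m ^ d • (⊤ : Submodule R V) := by
    rw [he, pow_succ', Submodule.mul_smul]
    exact Submodule.smul_mem_smul ht hx
  rwa [hspec, Submodule.mem_bot] at this

/-! ### the hard primes -/

section Main

variable {k R V G : Type*} [Field k] [CommRing R] [IsLocalRing R] [Algebra k R] [AddCommGroup V]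
  [Module k V] [Module R V] [IsScalarTower k R V] [Group G] [DistribMulAction G V]
  (Φ : Matrix (Fin 2) (Fin 2) R →ₐ[R] Module.End R V) (ρ : G →* Matrix (Fin 2) (Fin 2) R)

/-- **[HARD]**, algebra : (UNIP) + (KEY) + (MP). -/
theorem hard_alg (hact : ∀ (g : G) (v : V), Φ (ρ g) v = g • v)
    (hfaith : ∀ x : R, (∀ v : V, x • v = 0) → x = 0)
    (hspan : Algebra.adjoin R (Set.range ρ) = ⊤)
    (htr : Algebra.adjoin k (Set.range fun g : G => (ρ g).trace) = ⊤)
    (hdet : ∀ g, ∃ c : k, (ρ g).det = algebraMap k R c)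
    (hsoc : ∃ x : V, x ≠ 0 ∧ ∀ t ∈ maximalIdeal R, t • x = 0)
    (τ σ : G) (q : ℕ)
    (hτm : ∀ a b, (ρ τ - 1) a b ∈ maximalIdeal R)
    (hunip : ∀ v : V, τ • τ • v - 2 • τ • v + v = 0)
    (hdetτ : (ρ τ).det = 1) (hdetσ : (ρ σ).det = (q : R)) (hq : (q : k) ≠ 0)
    (w : V →ₗ[k] V) (hww : ∀ x, w (w x) = x) (hwg : ∀ (g : G) x, w (g • x) = g • w x)
    (key : ∀ x : V, τ • x = x → σ • x + q • w x = 0) :
    (q : k) = 1 ∧ ∃ ε : R, (ε = 1 ∨ ε = -1) ∧
      (∀ a b, (ρ σ - ε • (1 : Matrix (Fin 2) (Fin 2) R)) a b ∈ maximalIdeal R) ∧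
      (ρ τ - 1) * (ρ τ - 1) = 0 ∧ (1 + (ρ τ - 1)).det = 1 ∧
      ∀ x : V, Φ (ρ τ - 1) x = 0 → Φ (ρ σ * ρ σ) x = x := by
  let wR : V →ₗ[R] V :=
    { toFun := w
      map_add' := w.map_add
      map_smul' := fun r x => map_smul_of_adjoin_trace Φ ρ hact htr hdet w hwg r x }
  have hwR : ∀ x, wR x = w x := fun _ => rfl
  have hwΦ := map_phi_comm Φ ρ hspan wR (fun g x => by rw [hact, hact]; exact hwg g x)
  have hfix : ∀ x : V, Φ (ρ τ - 1) x = 0 → τ • x = x := by
    intro x hx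
    rwa [map_sub, map_one, LinearMap.sub_apply, hact, Module.End.one_apply, sub_eq_zero] at hx
  have hcast : (q : R) = algebraMap k R (q : k) := (map_natCast (algebraMap k R) q).symm
  have hqR : IsUnit (q : R) := by
    rw [hcast]
    exact (IsUnit.mk0 _ hq).map (algebraMap k R)
  have hσx : ∀ x : V, τ • x = x → σ • x = -(q • w x) := fun x hx =>
    eq_neg_of_add_eq_zero_left (key x hx)
  obtain ⟨h1, ε, hε, hS⟩ := mp Φ (ρ τ - 1) (ρ σ) (q : R) hqR hdetσ hτm wR hww hwΦ
    (fun x hx => by rw [hact, hσx x (hfix x hx), hwR, Nat.cast_smul_eq_nsmul]) hsoc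
  have hq1 : (q : k) = 1 := by
    by_contra hne
    have hu : IsUnit ((q : k) - 1) := IsUnit.mk0 _ (sub_ne_zero.2 hne)
    have hu' := hu.map (algebraMap k R)
    rw [map_sub, map_one, ← hcast] at hu'
    exact (IsLocalRing.notMem_maximalIdeal.2 hu') h1
  have hqV : ∀ x : V, q • x = x := by
    intro x
    rw [← Nat.cast_smul_eq_nsmul k, hq1, one_smul]
  refine ⟨hq1, ε, hε, hS, ?_, by rw [add_sub_cancel, hdetτ], fun x hx => ?_⟩
  · refine Rho.eq_zero_of_phi_eq_zero Φ hfaith _ fun v => ?_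
    have e : (ρ τ - 1) * (ρ τ - 1) = ρ τ * ρ τ - 2 • ρ τ + 1 := by noncomm_ring
    rw [e, map_add, map_sub, map_mul, map_nsmul, map_one, LinearMap.add_apply,
      LinearMap.sub_apply, Module.End.mul_apply, LinearMap.smul_apply, hact, hact,
      Module.End.one_apply]
    exact hunip v
  · have hx' := hfix x hx
    rw [map_mul, Module.End.mul_apply, hact, hact, hσx x hx', hqV, smul_neg, ← hwg, hσx x hx',
      hqV, map_neg, hww, neg_neg]

end Main

end Fermat.Agent.RIB.Hard
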