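import Fermat.Agent.RIB.Hard.Main
import Fermat.Agent.RIB.Key.Main
import Fermat.Agent.RIB.Main.NonEis

/-!
# RIB / HARD / Out : `hard_out'` = the statement `hard_out` of `RIB/Main/Blocks.lean`, verbatim

`hardOut_of_key` (helper20) + `key_final` (helper67) + `ECtx.exists_nonEis` (helper33).
-/

set_option autoImplicit false
set_option linter.unusedVariables false

noncomputable section

open AlgebraicCurve ModularCurve Module

namespace Fermat.Agent.RIB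

local notation "Qbar" => AlgebraicClosure ℚ
local notation "GQ" => (AlgebraicClosure ℚ ≃ₐ[ℚ] AlgebraicClosure ℚ)
local notation "M₂" => Matrix (Fin 2) (Fin 2)

variable {p : ℕ} [Fact p.Prime] {T : Finset ℕ} {θ : ℕ → ℤ} {rbar0 : GQ →* M₂ (ZMod p)}

/-- **(B5, HARD)** : `q ‖ L = L₁ q`, `L₁` rigid, `p ∤ L`, `W(L₁) = 0`. -/
theorem hard_out' (EC : ECtx p T θ rbar0) (S : Finset ℕ) (hTS : T ⊆ S) (L L₁ q : ℕ) [NeZero L]
    [NeZero L₁] (hLq : L = L₁ * q) (hq : q.Prime) (hq2 : q ≠ 2) (hqp : q ≠ p) (hqL : ¬ q ∣ L₁)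
    (h4 : 4 ∣ L₁) (hpL : ¬ p ∣ L) (hL : ∀ r : ℕ, r.Prime → r ∣ L * p → r ∈ S)
    (hvan : WS L₁ p (↑S : Set ℕ) θ = ⊥) : HardOut L p (↑S : Set ℕ) θ rbar0 ⟨q, hq⟩ := by
  have hp : p.Prime := Fact.out
  have : Fact q.Prime := ⟨hq⟩
  obtain ⟨ℓ₀, h1, h2, h3⟩ := EC.exists_nonEis S
  refine Hard.hardOut_of_key EC (↑S : Set ℕ) L q hq hq2 hqp (hLq ▸ Dvd.intro_left L₁ rfl) ?_ ?_
  · rw [hLq, pow_two]
    intro hd
    exact hqL (Nat.dvd_of_mul_dvd_mul_right hq.pos hd)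
  · intro σ hσ
    exact Key.key_final hLq hqL (Or.inl h4) hp (Ne.symm hqp) _
      (S56.liesOverPrime_primeLocalPlace ⟨q, hq⟩) hσ (↑S : Set ℕ)
      (fun ℓ hℓ hℓS hd => hℓS (Finset.mem_coe.2 (hL ℓ hℓ hd))) θ hvan ℓ₀ h1
      (fun h => h2 (Finset.mem_coe.1 h)) h3

end Fermat.Agent.RIB
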